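/-
S18 / Program J (helper17): leaf C4 `exists_bound` of helper74's skeleton (route #1073, (IV)).

If `u` is not an `m`-th power (`m` prime), then on finite-dimensional spaces `V_j` the coefficients
`h_j` of `∑ h_j g^j` are bounded by its value, uniformly in the approximate `m`-th root `g` of `u`.
Everything happens inside `F`: norm form of `F[T]/(T^m - u)` as a twisted circulant determinant,
Nullstellensatz on the coordinates, orthonormal families (`cartesian`).
-/
import Fermat.Agent.S18.H17.BoundAux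

set_option autoImplicit false

open Matrix Polynomial

namespace Fermat.Agent.S18.H17

section ON

variable {K : Type*} [Field K] (A : ValuationSubring K) {F : Type*} [Field F] [Algebra K F]
  (O : ValuationSubring F)

/-- In an orthonormal family the valuation of a combination dominates each coefficient. -/
theorem le_val_of_orthonormal (hA : A ≠ ⊤)
    (hmem : ∀ a : K, algebraMap K F a ∈ O ↔ a ∈ A)
    (hscale : ∀ f : F, f ≠ 0 →
      ∃ c : K, c ≠ 0 ∧ algebraMap K F c * f ∈ O ∧ (algebraMap K F c * f)⁻¹ ∈ O)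
    {r : ℕ} (b : Fin r → F) (hON : ∀ c : Fin r → K, (∑ i, c i • b i) ∈ O ↔ ∀ i, c i ∈ A)
    (a : Fin r → K) (t₀ : Fin r) :
    O.valuation (algebraMap K F (a t₀)) ≤ O.valuation (∑ t, a t • b t) := by
  by_cases ha0 : a t₀ = 0
  · rw [ha0, map_zero, map_zero]; exact zero_le
  by_contra hcon
  rw [not_le] at hcon
  -- normalise
  set f' : F := ∑ t, (a t / a t₀) • b t with hf'
  have hf'eq : f' = (algebraMap K F (a t₀))⁻¹ * ∑ t, a t • b t := by
    rw [hf', Finset.mul_sum]
    refine Finset.sum_congr rfl fun t _ => ?_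
    rw [Algebra.smul_def, Algebra.smul_def, map_div₀]
    field_simp
  have hvf' : O.valuation f' < 1 := by
    rw [hf'eq, map_mul, map_inv₀]
    have hpos : 0 < O.valuation (algebraMap K F (a t₀)) :=
      zero_lt_iff.mpr ((Valuation.ne_zero_iff _).mpr (by simpa using ha0))
    rw [inv_mul_lt_iff₀ hpos, mul_one]
    exact hcon
  -- an element `c ∉ A` with `c • f' ∈ O`
  obtain ⟨c, hcA, hcf⟩ : ∃ c : K, c ∉ A ∧ algebraMap K F c * f' ∈ O := by
    by_cases hf0 : f' = 0
    · obtain ⟨y, hy⟩ : ∃ y : K, y ∉ A := by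
        by_contra hall
        push Not at hall
        exact hA (eq_top_iff.mpr fun y _ => hall y)
      exact ⟨y, hy, by rw [hf0, mul_zero]; exact O.zero_mem⟩
    · obtain ⟨c, hc0, hc1, hc2⟩ := hscale f' hf0
      refine ⟨c, ?_, hc1⟩
      intro hcA
      have h1 : O.valuation (algebraMap K F c) ≤ 1 :=
        (O.valuation_le_one_iff _).mpr ((hmem c).mpr hcA)
      have h2 : O.valuation (algebraMap K F c * f')⁻¹ ≤ 1 := (O.valuation_le_one_iff _).mpr hc2
      rw [map_inv₀, map_mul] at h2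
      have h3 : O.valuation (algebraMap K F c) * O.valuation f' < 1 :=
        lt_of_le_of_lt (mul_le_of_le_one_left' h1) hvf'
      have hne : O.valuation (algebraMap K F c) * O.valuation f' ≠ 0 :=
        mul_ne_zero ((Valuation.ne_zero_iff _).mpr (by simpa using hc0))
          ((Valuation.ne_zero_iff _).mpr hf0)
      have h4 : 1 ≤ O.valuation (algebraMap K F c) * O.valuation f' :=
        (inv_le_one₀ (zero_lt_iff.mpr hne)).mp h2
      exact absurd h3 (not_lt.mpr h4)
  have hmemO : (∑ t, (c * (a t / a t₀)) • b t) ∈ O := by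
    have : (∑ t, (c * (a t / a t₀)) • b t) = algebraMap K F c * f' := by
      rw [hf', Finset.mul_sum]
      refine Finset.sum_congr rfl fun t _ => ?_
      rw [mul_smul, Algebra.smul_def c]
    rw [this]; exact hcf
  have := (hON _).mp hmemO t₀
  rw [div_self ha0, mul_one] at this
  exact hcA this

/-- Finitely many elements of `F` are bounded by a constant of `K`. -/
theorem exists_common_bound
    (hmem : ∀ a : K, algebraMap K F a ∈ O ↔ a ∈ A)
    (hscale : ∀ f : F, f ≠ 0 →
      ∃ c : K, c ≠ 0 ∧ algebraMap K F c * f ∈ O ∧ (algebraMap K F c * f)⁻¹ ∈ O)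
    {κ : Type*} [Fintype κ] (e : κ → F) :
    ∃ D : K, D ≠ 0 ∧ D ∈ A ∧ ∀ k, algebraMap K F D * e k ∈ O := by
  classical
  have h1 : ∀ k, ∃ c : K, c ≠ 0 ∧ algebraMap K F c * e k ∈ O := by
    intro k
    by_cases hk : e k = 0
    · exact ⟨1, one_ne_zero, by rw [hk, mul_zero]; exact O.zero_mem⟩
    · obtain ⟨c, hc0, hc1, _⟩ := hscale (e k) hk
      exact ⟨c, hc0, hc1⟩
  choose c hc0 hc using h1
  obtain ⟨D, hD0, hD1, hDS⟩ := exists_common_denom A.valuation (Finset.univ.image fun k => (c k)⁻¹)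
  refine ⟨D, hD0, (A.valuation_le_one_iff D).mp hD1, fun k => ?_⟩
  have h2 : D * (c k)⁻¹ ∈ A :=
    (A.valuation_le_one_iff _).mp (hDS _ (Finset.mem_image.mpr ⟨k, Finset.mem_univ k, rfl⟩))
  have h3 : algebraMap K F D * e k = algebraMap K F (D * (c k)⁻¹) * (algebraMap K F (c k) * e k) := by
    rw [map_mul, map_inv₀]
    have : algebraMap K F (c k) ≠ 0 := by simpa using hc0 k
    field_simp
  rw [h3]
  exact mul_mem ((hmem _).mpr h2) (hc k)

end ON

section Main

variable {K : Type*} [Field K] (A : ValuationSubring K) {F : Type*} [Field F] [Algebra K F]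
  (O : ValuationSubring F)

/-- Expansion of a polynomial over `F` in an orthonormal family. -/
theorem exists_decomp
    (hcart : ∀ V : Submodule K F, FiniteDimensional K V →
      ∃ b : Fin (Module.finrank K V) → F, (∀ i, b i ∈ V) ∧
        (∀ f ∈ V, ∃ c : Fin (Module.finrank K V) → K, f = ∑ i, c i • b i) ∧
        ∀ c : Fin (Module.finrank K V) → K, (∑ i, c i • b i) ∈ O ↔ ∀ i, c i ∈ A)
    {ι : Type*} [Fintype ι] (Q : MvPolynomial ι F) :
    ∃ (r : ℕ) (b : Fin r → F) (P : Fin r → MvPolynomial ι K),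
      (∀ c : Fin r → K, (∑ i, c i • b i) ∈ O ↔ ∀ i, c i ∈ A) ∧
      ∀ c : ι → K, MvPolynomial.eval (fun i => algebraMap K F (c i)) Q
        = ∑ t, MvPolynomial.eval c (P t) • b t := by
  classical
  let VQ : Submodule K F :=
    Submodule.span K ((Q.support.image fun α => Q.coeff α : Finset F) : Set F)
  have hfd : FiniteDimensional K VQ := FiniteDimensional.span_finset K _
  obtain ⟨b, -, hspan, hON⟩ := hcart VQ hfd
  have hκ : ∀ α : ι →₀ ℕ, ∃ κ : Fin (Module.finrank K VQ) → K,
      Q.coeff α = ∑ t, κ t • b t := by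
    intro α
    by_cases hα : α ∈ Q.support
    · exact hspan _ (Submodule.subset_span
        (Finset.mem_coe.mpr (Finset.mem_image.mpr ⟨α, hα, rfl⟩)))
    · exact ⟨0, by simp [MvPolynomial.notMem_support_iff.mp hα]⟩
  choose κ hκ using hκ
  refine ⟨_, b, fun t => ∑ α ∈ Q.support, MvPolynomial.monomial α (κ α t), hON, fun c => ?_⟩
  rw [MvPolynomial.eval_eq]
  simp only [map_sum, MvPolynomial.eval_monomial, Finset.sum_smul]
  rw [Finset.sum_comm]
  refine Finset.sum_congr rfl fun α _ => ?_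
  rw [hκ α, Finset.sum_mul]
  refine Finset.sum_congr rfl fun t _ => ?_
  rw [Algebra.smul_def, Algebra.smul_def, map_mul, Finsupp.prod, map_prod]
  simp only [map_pow]
  ring

/-- **Uniform independence of `1, g, …, g^(m-1)`** (core form of leaf C4).  If `u` is not an
`m`-th power (`m` prime), then on finite-dimensional spaces `V_j` the coefficients `h_j` of
`∑ h_j g^j` are bounded by its value, uniformly in the approximate `m`-th root `g` of `u`. -/
theorem exists_bound_core [IsAlgClosed K] (hA : A ≠ ⊤)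
    (harch : ∀ a c : K, a ∈ A.nonunits → c ≠ 0 → ∃ n : ℕ, a ^ n * c⁻¹ ∈ A)
    (hmem : ∀ a : K, algebraMap K F a ∈ O ↔ a ∈ A)
    (hscale : ∀ f : F, f ≠ 0 →
      ∃ c : K, c ≠ 0 ∧ algebraMap K F c * f ∈ O ∧ (algebraMap K F c * f)⁻¹ ∈ O)
    (hcart : ∀ V : Submodule K F, FiniteDimensional K V →
      ∃ b : Fin (Module.finrank K V) → F, (∀ i, b i ∈ V) ∧
        (∀ f ∈ V, ∃ c : Fin (Module.finrank K V) → K, f = ∑ i, c i • b i) ∧
        ∀ c : Fin (Module.finrank K V) → K, (∑ i, c i • b i) ∈ O ↔ ∀ i, c i ∈ A)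
    (m : ℕ) (hmp : m.Prime) (u : F) (hu : u - 1 ∈ O.nonunits)
    (hnot : ¬ ∃ w : F, u = w ^ m) (V : Fin m → Submodule K F)
    (hV : ∀ j, FiniteDimensional K (V j)) :
    ∃ (c₀ : K) (N₀ : ℕ), c₀ ≠ 0 ∧ ∀ N, N₀ ≤ N → ∀ g : F,
      (g - 1 ∈ O.nonunits ∧ ∃ e ∈ O, g ^ m = u + (u - 1) ^ (N + 1) * e) →
      ∀ h : Fin m → F, (∀ j, h j ∈ V j) → (∑ j : Fin m, h j * g ^ (j : ℕ)) ∈ O →
        ∀ j, algebraMap K F c₀ * h j ∈ O := by
  classical
  have : NeZero m := ⟨hmp.ne_zero⟩
  have : ∀ j, Module.Finite K (V j) := hV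
  set v := O.valuation with hv
  have hvle : ∀ f : F, v f ≤ 1 ↔ f ∈ O := fun f => O.valuation_le_one_iff f
  have hvK : ∀ a : K, v (algebraMap K F a) ≤ 1 ↔ a ∈ A := fun a => (hvle _).trans (hmem a)
  have hvne : ∀ a : K, a ≠ 0 → v (algebraMap K F a) ≠ 0 := fun a ha =>
    (Valuation.ne_zero_iff _).mpr (by simpa using ha)
  -- a basis of the product space
  let Bw := Module.finBasis K ((j : Fin m) → V j)
  set d := Module.finrank K ((j : Fin m) → V j) with hd
  let E : Fin d → Fin m → F := fun i j => ((Bw i) j : F)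
  have hirr : Irreducible (X ^ m - C u : F[X]) :=
    X_pow_sub_C_irreducible_of_prime hmp (fun b hb => hnot ⟨b, hb.symm⟩)
  obtain ⟨r, b, P, hON, hdec⟩ := exists_decomp A O hcart (normPoly E u)
  -- coordinates
  have hcoord : ∀ h : Fin m → F, (∀ j, h j ∈ V j) →
      ∃ c : Fin d → K, ∀ j, h j = ∑ i, algebraMap K F (c i) * E i j := by
    intro h hh
    let w : (j : Fin m) → V j := fun j => ⟨h j, hh j⟩
    refine ⟨fun i => Bw.repr w i, fun j => ?_⟩
    have h1 := congrArg (fun z : (j : Fin m) → V j => ((z j : V j) : F)) (Bw.sum_repr w)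
    simp only [Finset.sum_apply, Pi.smul_apply, Submodule.coe_sum, Submodule.coe_smul, w] at h1
    rw [← h1]
    refine Finset.sum_congr rfl fun i _ => ?_
    rw [Algebra.smul_def]
  have hinj : ∀ c : Fin d → K, (∀ j, ∑ i, algebraMap K F (c i) * E i j = 0) → c = 0 := by
    intro c hc
    have h1 : ∑ i, c i • Bw i = 0 := by
      funext j
      apply Subtype.ext
      simp only [Finset.sum_apply, Pi.smul_apply, Submodule.coe_sum, Submodule.coe_smul,
        Pi.zero_apply, ZeroMemClass.coe_zero]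
      rw [← hc j]
      refine Finset.sum_congr rfl fun i _ => ?_
      rw [Algebra.smul_def]
    funext i
    exact Fintype.linearIndependent_iff.mp Bw.linearIndependent c h1 i
  have hzero : ∀ c : Fin d → K, (∀ t, MvPolynomial.eval c (P t) = 0) → c = 0 := by
    intro c hc
    have hN : (circ (fun j => ∑ i, algebraMap K F (c i) * E i j) u).det = 0 := by
      rw [← eval_normPoly, hdec c]
      simp [hc]
    by_contra hc0
    exact det_circ_ne_zero u hirr _ (fun h0 => hc0 (hinj c fun j => congrFun h0 j)) hN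
  -- constants
  obtain ⟨dd, hdd0, hdd⟩ := exists_nullstellensatz_bound (v.comap (algebraMap K F)) P hzero
  obtain ⟨D, hD0, hDA, hDE⟩ :=
    exists_common_bound A O hmem hscale (fun p : Fin d × Fin m => E p.1 p.2)
  have hu1 : u - 1 ≠ 0 := fun h0 => hnot ⟨1, by rw [one_pow]; exact sub_eq_zero.mp h0⟩
  have hvu : v (u - 1) < 1 := O.mem_nonunits_iff.mp hu
  obtain ⟨a, ha0, ha1, ha2⟩ := hscale (u - 1) hu1
  have hva : v (algebraMap K F a) * v (u - 1) = 1 := by
    have h1 : v (algebraMap K F a * (u - 1)) ≤ 1 := (hvle _).mpr ha1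
    have h2 : v (algebraMap K F a * (u - 1))⁻¹ ≤ 1 := (hvle _).mpr ha2
    rw [map_inv₀] at h2
    have hne : v (algebraMap K F a * (u - 1)) ≠ 0 :=
      (Valuation.ne_zero_iff _).mpr (mul_ne_zero (by simpa using ha0) hu1)
    rw [← map_mul]
    exact le_antisymm h1 ((inv_le_one₀ (zero_lt_iff.mpr hne)).mp h2)
  have hainv : a⁻¹ ∈ A.nonunits := by
    rw [ValuationSubring.inv_mem_nonunits_iff]
    right
    intro haA
    have h1 : v (algebraMap K F a) ≤ 1 := (hvK a).mpr haA
    have h2 : v (algebraMap K F a) * v (u - 1) < 1 :=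
      lt_of_le_of_lt (mul_le_of_le_one_left' h1) hvu
    rw [hva] at h2
    exact lt_irrefl _ h2
  obtain ⟨c₀, hc₀⟩ : ∃ c₀ : K, c₀ = D ^ m * dd := ⟨_, rfl⟩
  have hc₀0 : c₀ ≠ 0 := by rw [hc₀]; exact mul_ne_zero (pow_ne_zero _ hD0) hdd0
  have hvc₀eq : v (algebraMap K F c₀) = v (algebraMap K F D) ^ m * v (algebraMap K F dd) := by
    rw [hc₀, map_mul, map_mul, map_pow, map_pow]
  obtain ⟨N₀, hN₀⟩ := harch a⁻¹ c₀ hainv hc₀0
  have hvc₀ : v (algebraMap K F c₀) ≠ 0 := hvne c₀ hc₀0
  have hvu_eq : v (algebraMap K F a⁻¹) = v (u - 1) := by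
    rw [map_inv₀, map_inv₀]
    exact inv_eq_of_mul_eq_one_right hva
  have hsmall : v (u - 1) ^ (N₀ + 1) < v (algebraMap K F c₀) := by
    have h1 : v (algebraMap K F (a⁻¹ ^ N₀ * c₀⁻¹)) ≤ 1 := (hvK _).mpr hN₀
    rw [map_mul, map_mul, map_pow, map_pow, hvu_eq, map_inv₀, map_inv₀] at h1
    have h2 : v (u - 1) ^ N₀ ≤ v (algebraMap K F c₀) := by
      have := (mul_inv_le_iff₀ (zero_lt_iff.mpr hvc₀)).mp h1
      simpa using this
    calc v (u - 1) ^ (N₀ + 1) = v (u - 1) ^ N₀ * v (u - 1) := pow_succ _ _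
      _ ≤ v (algebraMap K F c₀) * v (u - 1) := mul_le_mul_left h2 _
      _ < v (algebraMap K F c₀) := mul_lt_of_lt_one_right (zero_lt_iff.mpr hvc₀) hvu
  refine ⟨c₀, N₀, hc₀0, ?_⟩
  rintro N hN g ⟨hg1, e, heO, hge⟩ h hh hΨ j₀
  obtain ⟨c, hc⟩ := hcoord h hh
  by_cases hc0 : c = 0
  · have h0 : h j₀ = 0 := by rw [hc j₀]; simp [hc0]
    rw [h0, mul_zero]; exact O.zero_mem
  -- a coordinate of maximal valuation
  obtain ⟨i₁, hi₁⟩ : ∃ i, c i ≠ 0 := Function.ne_iff.mp hc0
  obtain ⟨i₀, -, hi₀⟩ := Finset.exists_max_image Finset.univ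
    (fun i => v (algebraMap K F (c i))) ⟨i₁, Finset.mem_univ i₁⟩
  have hci₀ : c i₀ ≠ 0 := by
    intro h0
    have := hi₀ i₁ (Finset.mem_univ _)
    rw [h0, map_zero, map_zero] at this
    exact hvne _ hi₁ (le_antisymm this zero_le)
  have hvci₀ : v (algebraMap K F (c i₀)) ≠ 0 := hvne _ hci₀
  set c' : Fin d → K := fun i => c i / c i₀ with hc'
  set h' : Fin m → F := fun j => ∑ i, algebraMap K F (c' i) * E i j with hh'
  have hc'A : ∀ i, c' i ∈ A := by
    intro i
    rw [← hvK, hc', map_div₀, map_div₀]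
    exact (div_le_one₀ (zero_lt_iff.mpr hvci₀)).mpr (hi₀ i (Finset.mem_univ _))
  have hc'1 : c' i₀ = 1 := div_self hci₀
  have hhh' : ∀ j, h j = algebraMap K F (c i₀) * h' j := by
    intro j
    rw [hc j, hh', Finset.mul_sum]
    refine Finset.sum_congr rfl fun i _ => ?_
    rw [hc', map_div₀]
    have : algebraMap K F (c i₀) ≠ 0 := by simpa using hci₀
    field_simp
  -- `h'' = D • h'` is integral
  have hh''O : ∀ j, algebraMap K F D * h' j ∈ O := by
    intro j
    rw [hh', Finset.mul_sum]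
    refine sum_mem fun i _ => ?_
    have h1 : algebraMap K F D * (algebraMap K F (c' i) * E i j)
        = algebraMap K F (c' i) * (algebraMap K F D * E i j) := by ring
    rw [h1]
    exact mul_mem ((hmem _).mpr (hc'A i)) (hDE (i, j))
  -- lower bound for the norm form
  set N' : F := (circ h' u).det with hN'
  have hN'eq : N' = ∑ t, MvPolynomial.eval c' (P t) • b t := by
    rw [hN', ← hdec c', eval_normPoly]
  have hN'low : v (algebraMap K F dd) ≤ v N' := by
    obtain ⟨t, ht⟩ := hdd c' (fun i => (hvK _).mpr (hc'A i)) ⟨i₀, hc'1⟩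
    rw [hN'eq]
    exact le_trans ht
      (le_val_of_orthonormal A O hA hmem hscale b hON (fun t => MvPolynomial.eval c' (P t)) t)
  have hdet'' : (circ (fun j => algebraMap K F D * h' j) u).det = algebraMap K F D ^ m * N' := by
    rw [circ_smul, Matrix.det_smul, Fintype.card_fin]
  -- the determinant identity in the subring `O`
  have hgO : g ∈ O := by
    have := O.add_mem _ _ (O.nonunits_subset hg1) O.one_mem
    simpa using this
  have huO : u ∈ O := by
    have := O.add_mem _ _ (O.nonunits_subset hu) O.one_mem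
    simpa using this
  let hO : Fin m → O := fun j => ⟨algebraMap K F D * h' j, hh''O j⟩
  let gO : O := ⟨g, hgO⟩
  let uO : O := ⟨u, huO⟩
  obtain ⟨ε, hε⟩ := Ideal.mem_span_singleton'.mp (det_circ_sub_mem hO (gO ^ m) uO)
  have h7 := det_circ_pow hO gO
  set δ : O := ((circ hO (gO ^ m)).updateRow 0 (fun k : Fin m => gO ^ (k : ℕ))).det with hδ
  have hmapdet : ((circ hO uO).det : F) = (circ (fun j => algebraMap K F D * h' j) u).det := by
    have h1 := RingHom.map_det O.subtype (circ hO uO)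
    rw [RingHom.mapMatrix_apply, circ_map] at h1
    exact h1
  set Ψ'' : F := ∑ j : Fin m, (algebraMap K F D * h' j) * g ^ (j : ℕ) with hΨ''
  have hident : (circ (fun j => algebraMap K F D * h' j) u).det
      = Ψ'' * (δ : F) + (ε : F) * (u - g ^ m) := by
    rw [← hmapdet]
    have h8 : (circ hO uO).det = (∑ j : Fin m, hO j * gO ^ (j : ℕ)) * δ + ε * (uO - gO ^ m) := by
      rw [hε, ← h7]; ring
    rw [h8]
    push_cast
    rfl
  -- valuations
  have hug : v (u - g ^ m) ≤ v (u - 1) ^ (N + 1) := by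
    have h1 : u - g ^ m = -((u - 1) ^ (N + 1) * e) := by rw [hge]; ring
    rw [h1, Valuation.map_neg, map_mul, map_pow]
    exact mul_le_of_le_one_right' ((hvle e).mpr heO)
  have hpowle : v (u - 1) ^ (N + 1) ≤ v (u - 1) ^ (N₀ + 1) :=
    pow_le_pow_right_of_le_one' hvu.le (Nat.succ_le_succ hN)
  have hdetlow : v (algebraMap K F c₀) ≤ v ((circ (fun j => algebraMap K F D * h' j) u).det) := by
    rw [hdet'', hvc₀eq, map_mul, map_pow]
    exact mul_le_mul_right hN'low _
  have hΨlow : v (algebraMap K F c₀) ≤ v Ψ'' := by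
    have h1 : v ((circ (fun j => algebraMap K F D * h' j) u).det)
        ≤ max (v (Ψ'' * (δ : F))) (v ((ε : F) * (u - g ^ m))) := by
      rw [hident]; exact Valuation.map_add _ _ _
    have e1 : v (Ψ'' * (δ : F)) = v Ψ'' * v (δ : F) := map_mul _ _ _
    have e2 : v ((ε : F) * (u - g ^ m)) = v (ε : F) * v (u - g ^ m) := map_mul _ _ _
    rcases le_max_iff.mp (le_trans hdetlow h1) with h2 | h2
    · rw [e1] at h2
      exact le_trans h2 (mul_le_of_le_one_right' ((hvle _).mpr δ.2))
    · exfalso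
      rw [e2] at h2
      have h3 : v (algebraMap K F c₀) ≤ v (u - 1) ^ (N₀ + 1) :=
        le_trans h2 (le_trans (mul_le_of_le_one_left' ((hvle _).mpr ε.2)) (le_trans hug hpowle))
      exact absurd hsmall (not_lt.mpr h3)
  -- `Ψ'' * c i₀ = D * Ψ`
  have hΨrel : Ψ'' * algebraMap K F (c i₀) = algebraMap K F D * ∑ j : Fin m, h j * g ^ (j : ℕ) := by
    rw [hΨ'', Finset.sum_mul, Finset.mul_sum]
    refine Finset.sum_congr rfl fun j _ => ?_
    rw [hhh' j]; ring
  have hfin1 : v (algebraMap K F c₀) * v (algebraMap K F (c i₀)) ≤ v (algebraMap K F D) := by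
    calc v (algebraMap K F c₀) * v (algebraMap K F (c i₀))
        ≤ v Ψ'' * v (algebraMap K F (c i₀)) := mul_le_mul_left hΨlow _
      _ = v (algebraMap K F D) * v (∑ j : Fin m, h j * g ^ (j : ℕ)) := by
          rw [← map_mul, hΨrel, map_mul]
      _ ≤ v (algebraMap K F D) := mul_le_of_le_one_right' ((hvle _).mpr hΨ)
  have e3 : v (algebraMap K F c₀ * (algebraMap K F (c i₀) * h' j₀))
      = v (algebraMap K F c₀) * v (algebraMap K F (c i₀)) * v (h' j₀) := by
    rw [← mul_assoc, map_mul, map_mul]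
  rw [← hvle, hhh' j₀, e3]
  calc v (algebraMap K F c₀) * v (algebraMap K F (c i₀)) * v (h' j₀)
      ≤ v (algebraMap K F D) * v (h' j₀) := mul_le_mul_left hfin1 _
    _ = v (algebraMap K F D * h' j₀) := (map_mul _ _ _).symm
    _ ≤ 1 := (hvle _).mpr (hh''O j₀)

end Main

end Fermat.Agent.S18.H17
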