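/-
S18 / Program J (helper17): the twisted circulant.

`circ h t` is the matrix of multiplication by `∑ h_j T^j` on `R[T]/(T^m - t)` in the basis
`1, T, …, T^(m-1)`.  Generic facts (any commutative ring):
* `sum_pow_mul_circ` : the row vector `(y^i)` is a left eigenvector of `circ h (y^m)` with
  eigenvalue `∑ h_j y^j`;
* `det_circ_pow` : hence `det (circ h (y^m)) = (∑ h_j y^j) * det (row 0 replaced by (y^k))`;
* `det_circ_sub_mem` : `det (circ h u) - det (circ h t) ∈ (u - t)`;
* `det_circ_ne_zero` : over a field, if `X^m - u` is irreducible and `h ≠ 0` then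
  `det (circ h u) ≠ 0`.
-/
import Mathlib

set_option autoImplicit false

open Matrix Polynomial

namespace Fermat.Agent.S18.H17

section Circ

variable {R : Type*} [CommRing R] {m : ℕ}

/-- The twisted circulant: the matrix of multiplication by `∑ h_j T^j` on `R[T]/(T^m - t)`
in the basis `1, T, …, T^(m-1)`. -/
def circ (h : Fin m → R) (t : R) : Matrix (Fin m) (Fin m) R :=
  Matrix.of fun i k => (if k ≤ i then 1 else t) * h (i - k)

theorem circ_apply (h : Fin m → R) (t : R) (i k : Fin m) :
    circ h t i k = (if k ≤ i then 1 else t) * h (i - k) := rfl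

theorem circ_map {S : Type*} [CommRing S] (φ : R →+* S) (h : Fin m → R) (t : R) :
    (circ h t).map φ = circ (fun j => φ (h j)) (φ t) := by
  ext i k
  simp only [Matrix.map_apply, circ_apply, map_mul]
  split_ifs <;> simp

theorem circ_smul (a : R) (h : Fin m → R) (t : R) :
    circ (fun j => a * h j) t = a • circ h t := by
  ext i k
  simp only [circ_apply, Matrix.smul_apply, smul_eq_mul]
  ring

theorem pow_mul_ite (y : R) (i k : Fin m) :
    y ^ (i : ℕ) * (if k ≤ i then 1 else y ^ m) = y ^ ((k : ℕ) + ((i - k : Fin m) : ℕ)) := by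
  split_ifs with hki
  · rw [mul_one, Fin.coe_sub_iff_le.mpr hki]
    congr 1
    have h1 : (k : ℕ) ≤ i := hki
    omega
  · have hlt : i < k := not_le.mp hki
    rw [Fin.coe_sub_iff_lt.mpr hlt, ← pow_add]
    congr 1
    have h1 : (i : ℕ) < k := hlt
    have h2 := k.isLt
    omega

/-- The row vector `(y^i)_i` is a left eigenvector of `circ h (y^m)` for the eigenvalue
`∑ h_j y^j`. -/
theorem sum_pow_mul_circ [NeZero m] (h : Fin m → R) (y : R) (k : Fin m) :
    ∑ i : Fin m, y ^ (i : ℕ) * circ h (y ^ m) i k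
      = y ^ (k : ℕ) * ∑ j : Fin m, h j * y ^ (j : ℕ) := by
  have h1 : ∀ i : Fin m, y ^ (i : ℕ) * circ h (y ^ m) i k
      = y ^ (k : ℕ) * (h (i - k) * y ^ ((i - k : Fin m) : ℕ)) := by
    intro i
    rw [circ_apply, ← mul_assoc, pow_mul_ite, pow_add]
    ring
  simp_rw [h1]
  rw [← Finset.mul_sum]
  congr 1
  exact Fintype.sum_equiv (Equiv.subRight k) _ _ (fun i => rfl)

/-- `det (circ h (y^m)) = (∑ h_j y^j) * det (circ h (y^m) with row 0 replaced by (y^k)_k)`. -/
theorem det_circ_pow [NeZero m] (h : Fin m → R) (y : R) :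
    (circ h (y ^ m)).det = (∑ j : Fin m, h j * y ^ (j : ℕ)) *
      ((circ h (y ^ m)).updateRow 0 (fun k : Fin m => y ^ (k : ℕ))).det := by
  have h1 := Matrix.det_updateRow_sum (circ h (y ^ m)) 0 (fun i : Fin m => y ^ (i : ℕ))
  have h2 : (∑ i : Fin m, y ^ (i : ℕ) • (circ h (y ^ m)) i)
      = (∑ j : Fin m, h j * y ^ (j : ℕ)) • (fun k : Fin m => y ^ (k : ℕ)) := by
    ext k
    simp only [Finset.sum_apply, Pi.smul_apply, smul_eq_mul]
    rw [sum_pow_mul_circ]
    ring
  rw [h2, Matrix.det_updateRow_smul] at h1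
  simpa using h1.symm

/-- `det (circ h u) ≡ det (circ h t)` modulo `(u - t)`. -/
theorem det_circ_sub_mem (h : Fin m → R) (t u : R) :
    (circ h u).det - (circ h t).det ∈ Ideal.span ({u - t} : Set R) := by
  rw [← Ideal.Quotient.eq, RingHom.map_det, RingHom.map_det, RingHom.mapMatrix_apply,
    RingHom.mapMatrix_apply, circ_map, circ_map]
  have : Ideal.Quotient.mk (Ideal.span ({u - t} : Set R)) u
      = Ideal.Quotient.mk (Ideal.span ({u - t} : Set R)) t := by
    rw [Ideal.Quotient.eq]
    exact Ideal.subset_span rfl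
  rw [this]

end Circ

section Field

variable {F : Type*} [Field F] {m : ℕ}

/-- If `X^m - u` is irreducible and `h ≠ 0` then `det (circ h u) ≠ 0`
(the norm of a nonzero element of the field `F[T]/(T^m - u)`). -/
theorem det_circ_ne_zero [NeZero m] (u : F)
    (hirr : Irreducible (X ^ m - C u : F[X])) (h : Fin m → F) (hh : h ≠ 0) :
    (circ h u).det ≠ 0 := by
  classical
  intro hdet
  obtain ⟨a, ha, hMa⟩ := (Matrix.exists_mulVec_eq_zero_iff).mpr hdet
  have hm : 0 < m := Nat.pos_of_ne_zero (NeZero.ne m)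
  set f : F[X] := X ^ m - C u with hf
  have hfdeg : f.degree = m := degree_X_pow_sub_C hm u
  -- a nonzero polynomial of degree `< m` is not divisible by `f`
  have hnd : ∀ b : Fin m → F, b ≠ 0 → ¬ f ∣ ∑ j : Fin m, C (b j) * X ^ (j : ℕ) := by
    intro b hb hdvd
    have hne : (∑ j : Fin m, C (b j) * X ^ (j : ℕ)) ≠ 0 := by
      intro h0
      apply hb
      funext j
      have := congrArg (fun p : F[X] => p.coeff (j : ℕ)) h0
      simp only [finsetSum_coeff, coeff_C_mul, coeff_X_pow, coeff_zero] at this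
      rw [Finset.sum_eq_single j] at this
      · simpa using this
      · intro i _ hij
        have : (j : ℕ) ≠ i := fun h' => hij (Fin.ext h'.symm)
        simp [this]
      · intro h'; exact absurd (Finset.mem_univ j) h'
    have h1 := degree_le_of_dvd hdvd hne
    have h2 := degree_sum_fin_lt b
    rw [hfdeg] at h1
    exact absurd (lt_of_le_of_lt h1 h2) (lt_irrefl _)
  have hdvd : f ∣ (∑ j : Fin m, C (h j) * X ^ (j : ℕ)) * (∑ k : Fin m, C (a k) * X ^ (k : ℕ)) := by
    rw [← AdjoinRoot.mk_eq_zero]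
    set r := AdjoinRoot.root f with hr
    have hrm : r ^ m = AdjoinRoot.of f u := by
      have h0 := AdjoinRoot.eval₂_root f
      rw [hf, eval₂_sub, eval₂_pow, eval₂_X, eval₂_C] at h0
      exact sub_eq_zero.mp h0
    have hmk : ∀ b : Fin m → F, AdjoinRoot.mk f (∑ j : Fin m, C (b j) * X ^ (j : ℕ))
        = ∑ j : Fin m, AdjoinRoot.of f (b j) * r ^ (j : ℕ) := by
      intro b
      simp only [map_sum, map_mul, map_pow, AdjoinRoot.mk_C, AdjoinRoot.mk_X, hr]
    rw [map_mul, hmk, hmk]
    -- eigenvector identity in `AdjoinRoot f`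
    have key : ∀ k : Fin m, r ^ (k : ℕ) * ∑ j : Fin m, AdjoinRoot.of f (h j) * r ^ (j : ℕ)
        = ∑ i : Fin m, r ^ (i : ℕ) * AdjoinRoot.of f (circ h u i k) := by
      intro k
      have h1 := sum_pow_mul_circ (fun j => AdjoinRoot.of f (h j)) r k
      rw [hrm, ← circ_map] at h1
      rw [← h1]
      rfl
    calc (∑ j : Fin m, AdjoinRoot.of f (h j) * r ^ (j : ℕ))
          * ∑ k : Fin m, AdjoinRoot.of f (a k) * r ^ (k : ℕ)
        = ∑ k : Fin m, AdjoinRoot.of f (a k) *
            (r ^ (k : ℕ) * ∑ j : Fin m, AdjoinRoot.of f (h j) * r ^ (j : ℕ)) := by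
          rw [Finset.mul_sum]
          refine Finset.sum_congr rfl fun k _ => ?_
          ring
      _ = ∑ k : Fin m, ∑ i : Fin m, r ^ (i : ℕ) * AdjoinRoot.of f (circ h u i k * a k) := by
          refine Finset.sum_congr rfl fun k _ => ?_
          rw [key k, Finset.mul_sum]
          refine Finset.sum_congr rfl fun i _ => ?_
          rw [map_mul]
          ring
      _ = ∑ i : Fin m, r ^ (i : ℕ) * AdjoinRoot.of f (∑ k : Fin m, circ h u i k * a k) := by
          rw [Finset.sum_comm]
          refine Finset.sum_congr rfl fun i _ => ?_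
          rw [map_sum, Finset.mul_sum]
      _ = 0 := by
          refine Finset.sum_eq_zero fun i _ => ?_
          have := congrFun hMa i
          simp only [Matrix.mulVec, dotProduct, Pi.zero_apply] at this
          rw [this, map_zero, mul_zero]
  rcases hirr.prime.dvd_or_dvd hdvd with h1 | h1
  · exact hnd h hh h1
  · exact hnd a ha h1

end Field

end Fermat.Agent.S18.H17
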