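/-
S18 / Program J (helper17): auxiliary lemmas for `exists_bound` (leaf C4 of helper74's skeleton).

* `exists_common_denom` : finitely many elements of a valued field have a common denominator;
* `val_mul_eval_le_one` : evaluation of a polynomial with bounded coefficients at an integral point;
* `exists_nullstellensatz_bound` : forms without a common nontrivial zero over an algebraically
  closed valued field are bounded below on the "unit sphere" (Nullstellensatz);
* `normPoly`, `eval_normPoly` : the norm form `det (circ (∑ c_i E_i) u)` as a polynomial in `c`.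
-/
import Fermat.Agent.S18.H17.Circulant

set_option autoImplicit false

open Matrix

namespace Fermat.Agent.S18.H17

section Val

variable {K : Type*} [Field K] {Γ : Type*} [LinearOrderedCommGroupWithZero Γ] (w : Valuation K Γ)

/-- Finitely many elements have a common denominator. -/
theorem exists_common_denom (S : Finset K) :
    ∃ d : K, d ≠ 0 ∧ w d ≤ 1 ∧ ∀ s ∈ S, w (d * s) ≤ 1 := by
  classical
  induction S using Finset.induction_on with
  | empty => exact ⟨1, one_ne_zero, by simp, by simp⟩
  | insert s S hs ih =>
    obtain ⟨d, hd0, hd1, hdS⟩ := ih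
    by_cases hws : w s ≤ 1
    · refine ⟨d, hd0, hd1, ?_⟩
      intro s' hs'
      rcases Finset.mem_insert.mp hs' with rfl | h'
      · rw [map_mul]; exact mul_le_one' hd1 hws
      · exact hdS s' h'
    · have hs0 : s ≠ 0 := by rintro rfl; simp at hws
      have hws' : 1 < w s := not_le.mp hws
      have hinv : w s⁻¹ ≤ 1 := by
        rw [map_inv₀]
        exact (inv_le_one₀ (lt_trans zero_lt_one hws')).mpr hws'.le
      refine ⟨d * s⁻¹, mul_ne_zero hd0 (inv_ne_zero hs0), ?_, ?_⟩
      · rw [map_mul]; exact mul_le_one' hd1 hinv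
      · intro s' hs'
        rcases Finset.mem_insert.mp hs' with rfl | h'
        · have h1 : d * s'⁻¹ * s' = d := by field_simp
          rw [h1]; exact hd1
        · have h1 : d * s⁻¹ * s' = s⁻¹ * (d * s') := by ring
          rw [h1, map_mul]; exact mul_le_one' hinv (hdS s' h')

/-- Evaluation of a polynomial whose coefficients are bounded by `d⁻¹` at an integral point. -/
theorem val_mul_eval_le_one {ι : Type*} (R : MvPolynomial ι K) (d : K)
    (hd : ∀ α ∈ R.support, w (d * R.coeff α) ≤ 1) (c : ι → K) (hc : ∀ i, w (c i) ≤ 1) :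
    w (d * MvPolynomial.eval c R) ≤ 1 := by
  rw [MvPolynomial.eval_eq, Finset.mul_sum]
  refine Valuation.map_sum_le w fun α hα => ?_
  rw [← mul_assoc, map_mul, map_prod]
  refine mul_le_one' (hd α hα) (Finset.prod_le_one' fun i _ => ?_)
  rw [map_pow]
  exact pow_le_one' (hc i) _

/-- **Nullstellensatz bound.**  Polynomials `P_t` over an algebraically closed valued field whose
only common zero is the origin are bounded below on the unit sphere: there is `d ≠ 0` such that for
every integral point `c` with a coordinate equal to `1` some `P_t(c)` has valuation `≥ w d`. -/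
theorem exists_nullstellensatz_bound [IsAlgClosed K] {ι : Type*} [Fintype ι] {r : ℕ}
    (P : Fin r → MvPolynomial ι K)
    (hP : ∀ c : ι → K, (∀ t, MvPolynomial.eval c (P t) = 0) → c = 0) :
    ∃ d : K, d ≠ 0 ∧ ∀ c : ι → K, (∀ i, w (c i) ≤ 1) → (∃ i, c i = 1) →
      ∃ t, w d ≤ w (MvPolynomial.eval c (P t)) := by
  classical
  set J : Ideal (MvPolynomial ι K) := Ideal.span (Set.range P) with hJ
  have hX : ∀ i : ι, (MvPolynomial.X i : MvPolynomial ι K) ∈ J.radical := by
    intro i
    rw [← MvPolynomial.vanishingIdeal_zeroLocus_eq_radical (K := K), MvPolynomial.mem_vanishingIdeal_iff]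
    intro c hc
    have hc0 : c = 0 := hP c (fun t => by
      have h1 := hc (P t) (Ideal.subset_span ⟨t, rfl⟩)
      rwa [MvPolynomial.aeval_eq_eval] at h1)
    simp [hc0]
  have hX' : ∀ i : ι, ∃ n : ℕ, (MvPolynomial.X i : MvPolynomial ι K) ^ n ∈ J := fun i => hX i
  choose n hn using hX'
  have hR : ∀ i, ∃ R : Fin r → MvPolynomial ι K,
      ∑ t, R t * P t = (MvPolynomial.X i : MvPolynomial ι K) ^ n i := fun i =>
    (Ideal.mem_span_range_iff_exists_fun).mp (hn i)
  choose R hR using hR
  let S : Finset K := Finset.univ.biUnion fun i : ι => Finset.univ.biUnion fun t : Fin r =>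
    (R i t).support.image (fun α => (R i t).coeff α)
  obtain ⟨d, hd0, _, hdS⟩ := exists_common_denom w S
  refine ⟨d, hd0, ?_⟩
  rintro c hc ⟨i, hi⟩
  by_contra hcon
  push Not at hcon
  have hbound : ∀ t, w (d * MvPolynomial.eval c (R i t)) ≤ 1 := by
    intro t
    refine val_mul_eval_le_one w (R i t) d (fun α hα => hdS _ ?_) c hc
    simp only [S, Finset.mem_biUnion, Finset.mem_univ, true_and, Finset.mem_image]
    exact ⟨i, t, α, hα, rfl⟩
  have h1 : MvPolynomial.eval c ((MvPolynomial.X i : MvPolynomial ι K) ^ n i) = 1 := by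
    simp [hi]
  rw [← hR i, map_sum] at h1
  have h2 : d = ∑ t, (d * MvPolynomial.eval c (R i t)) * MvPolynomial.eval c (P t) := by
    calc d = d * 1 := (mul_one d).symm
      _ = d * ∑ t, MvPolynomial.eval c (R i t * P t) := by rw [h1]
      _ = _ := by
        rw [Finset.mul_sum]
        refine Finset.sum_congr rfl fun t _ => ?_
        rw [map_mul]; ring
  have hwd : w d ≠ 0 := (Valuation.ne_zero_iff w).mpr hd0
  have h3 : w d < w d := by
    conv_lhs => rw [h2]
    refine Valuation.map_sum_lt w hwd fun t _ => ?_
    rw [map_mul]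
    calc w (d * MvPolynomial.eval c (R i t)) * w (MvPolynomial.eval c (P t))
        ≤ 1 * w (MvPolynomial.eval c (P t)) := mul_le_mul_left (hbound t) _
      _ = w (MvPolynomial.eval c (P t)) := one_mul _
      _ < w d := hcon t
  exact lt_irrefl _ h3

end Val

section NormPoly

variable {F : Type*} [Field F] {ι : Type*} [Fintype ι] {m : ℕ}

/-- The norm form `c ↦ det (circ (∑ c_i E_i) u)` as a polynomial in the coordinates `c`. -/
noncomputable def normPoly (E : ι → Fin m → F) (u : F) : MvPolynomial ι F :=
  (circ (fun j => ∑ i, MvPolynomial.X i * MvPolynomial.C (E i j)) (MvPolynomial.C u)).det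

theorem eval_normPoly (E : ι → Fin m → F) (u : F) (c : ι → F) :
    MvPolynomial.eval c (normPoly E u) = (circ (fun j => ∑ i, c i * E i j) u).det := by
  unfold normPoly
  rw [RingHom.map_det, RingHom.mapMatrix_apply, circ_map]
  simp

end NormPoly

end Fermat.Agent.S18.H17
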