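/-
S18 / Program J (helper17): leaf C4 `exists_bound` in the exact shape of helper74's skeleton
(leaf L3c, package P9), from `exists_bound_core`; definitions from the landed `H74/CoreDefs`.
-/
import Fermat.Agent.S18.H74.CoreDefs
import Fermat.Agent.S18.H17.Bound

set_option autoImplicit false

namespace Fermat.Agent.S18.H17

open Fermat.Agent.S18.H74

/-- **(L3c) Uniform independence of `1, g, …, g^(m-1)`**, verbatim statement of
`Fermat.Agent.S18.H74.exists_bound`. -/
theorem exists_bound {K : Type*} [Field K] {A : ValuationSubring K} {F : Type*} [Field F]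
    [Algebra K F] {O : ValuationSubring F} {x : F} [IsAlgClosed K] [CharZero K] (hA : A ≠ ⊤)
    (harch : ∀ a c : K, a ∈ A.nonunits → c ≠ 0 → ∃ n : ℕ, a ^ n * c⁻¹ ∈ A)
    (hS : Setup K A F O x)
    (m : ℕ) (hmp : m.Prime) (_hm : ((m : K))⁻¹ ∈ A) (u : F) (hu : u - 1 ∈ O.nonunits)
    (hnot : ¬ ∃ w : F, u = w ^ m) (V : Fin m → Submodule K F)
    (hV : ∀ j, FiniteDimensional K (V j)) :
    ∃ (c₀ : K) (N₀ : ℕ), c₀ ≠ 0 ∧ ∀ N, N₀ ≤ N → ∀ g : F, IsApproxRoot O m u N g →
      ∀ h : Fin m → F, (∀ j, h j ∈ V j) → (∑ j, h j * g ^ (j : ℕ)) ∈ O →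
        ∀ j, algebraMap K F c₀ * h j ∈ O :=
  exists_bound_core A O hA harch hS.mem_iff hS.scale hS.cartesian m hmp u hu hnot V hV

end Fermat.Agent.S18.H17
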