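/-
S18 / H17 (helper17) : **FIB5, the norm-order formula** for a function field `F/K` over the
`x`-line, in the exact shape requested by the C1 fibres package (helper42):

  if `N_{F/K(x)}(f) * q(x) = p(x)` then for every `c : K`
  `rootMultiplicity c p - rootMultiplicity c q = ∑ᶠ_{P over c} ord_P f`.

Assembly of the landed `x`-chart dictionary (`S18/H42/{PlaceDict,Chart,FibreSum,Fibres}`) with the
landed ideal-norm computation (`S18/H53/NormVal.ordV_norm`).

* `addVal_aeval_at`   : an additive valuation, trivial on `K`, positive at `x - c`, takes the value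
                        `rootMultiplicity c p * o (x - c)` at `p(x)`.
* `pcPrime`           : the height-one prime `(x - c)` of `K[x]`.
* `ordV_pcPrime_aeval`: `ord_{(x-c)} p(x) = rootMultiplicity c p` in `K(x)`.
* `ordV_norm_eq_sum`  : `ord_{(x-c)} N(f) = ∑_{P over c} ord_P f` (Finset form).
* `ordV_norm_eq_finsum` : the same as a `finsum`.
* `norm_order'`, `norm_order` : FIB5 (with `Fact (Transcendental K x)` / instance-free).
* `norm_order_toFinset` : FIB5 with the explicit finite set `(H42.finite_over x hx c).toFinset`.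
-/
import Mathlib
import Fermat.Agent.S18.H42.Fibres
import Fermat.Agent.S18.H53.NormVal

set_option autoImplicit false
set_option linter.unusedSectionVars false
set_option linter.style.haveILetI false
set_option synthInstance.maxHeartbeats 200000
set_option maxHeartbeats 1000000

open AlgebraicCurve IsDedekindDomain Polynomial IntermediateField
open scoped IntermediateField.algebraAdjoinAdjoin

namespace Fermat.Agent.S18.H17

open Fermat.Agent.S24.H52 Fermat.Agent.S18.H42 Fermat.Agent.S18.H53
open scoped ChartInst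

noncomputable section

section AddVal

variable {K L : Type*} [Field K] [Field L] [Algebra K L]

/-- An additive valuation `o` on `L`, trivial on the constants and positive at `x - c`, has
`o (p(x)) = rootMultiplicity c p * o (x - c)`. -/
theorem addVal_aeval_at {o : L → ℤ} (ho : IsAddVal o)
    (hK : ∀ a : K, algebraMap K L a ≠ 0 → o (algebraMap K L a) = 0) {x : L} {c : K}
    (hP : 0 < o (x - algebraMap K L c)) (hπ0 : x - algebraMap K L c ≠ 0) {p : K[X]}
    (hp : p ≠ 0) :
    aeval x p ≠ 0 ∧
      o (aeval x p) = (p.rootMultiplicity c : ℤ) * o (x - algebraMap K L c) := by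
  have hq : p.comp (X + C c) ≠ 0 := by
    intro h
    rw [Polynomial.comp_eq_zero_iff] at h
    rcases h with h | ⟨-, h⟩
    · exact hp h
    · have := congrArg (fun q => q.coeff 1) h
      simp at this
  have h2 : aeval x p = aeval (x - algebraMap K L c) (p.comp (X + C c)) := by
    rw [Polynomial.aeval_comp]
    simp
  have h6 : (p.comp (X + C c)).rootMultiplicity 0 = p.rootMultiplicity c := by
    rw [Polynomial.rootMultiplicity_eq_natTrailingDegree',
      ← Polynomial.rootMultiplicity_eq_natTrailingDegree]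
  have key := ho.map_aeval hK hP hπ0 hq
  rw [h2, ← h6]
  exact key

end AddVal

variable (K : Type*) {F : Type*} [Field K] [Field F] [Algebra K F] (x : F)
variable [hx : Fact (Transcendental K x)] [FiniteDimensional K⟮x⟯ F] [CharZero K]

/-- The height-one prime `(x - c)` of `K[x]`. -/
def pcPrime (c : K) : HeightOneSpectrum (Rx K x) where
  asIdeal := pc K x c
  isPrime := (pc_isMaximal K x c).isPrime
  ne_bot := pc_ne_bot K x c

omit [FiniteDimensional K⟮x⟯ F] [CharZero K] in
@[simp]
theorem pcPrime_asIdeal (c : K) : (pcPrime K x c).asIdeal = pc K x c := rfl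

omit [FiniteDimensional K⟮x⟯ F] [CharZero K] in
/-- `ord_{(x-c)}` is trivial on the nonzero constants. -/
theorem ordV_pcPrime_const (c : K) (a : K) (ha : algebraMap K K⟮x⟯ a ≠ 0) :
    ordV (pcPrime K x c) K⟮x⟯ (algebraMap K K⟮x⟯ a) = 0 := by
  have ha0 : a ≠ 0 := by
    rintro rfl
    exact ha (map_zero _)
  have h1 : 0 ≤ ordV (pcPrime K x c) K⟮x⟯ (algebraMap K K⟮x⟯ a) := by
    rw [IsScalarTower.algebraMap_apply K (Rx K x) K⟮x⟯]
    exact ordV_algebraMap_nonneg _ _
  have h2 : 0 ≤ ordV (pcPrime K x c) K⟮x⟯ (algebraMap K K⟮x⟯ a⁻¹) := by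
    rw [IsScalarTower.algebraMap_apply K (Rx K x) K⟮x⟯]
    exact ordV_algebraMap_nonneg _ _
  rw [map_inv₀, ordV_inv] at h2
  omega

omit [FiniteDimensional K⟮x⟯ F] [CharZero K] in
/-- `ord_{(x-c)} (x - c) = 1`. -/
theorem ordV_pcPrime_xsub (c : K) :
    ordV (pcPrime K x c) K⟮x⟯ (AdjoinSimple.gen K x - algebraMap K K⟮x⟯ c) = 1 := by
  have h : AdjoinSimple.gen K x - algebraMap K K⟮x⟯ c
      = algebraMap (Rx K x) K⟮x⟯ (xsubR K x c) := by
    apply Subtype.ext
    rfl
  rw [h]
  unfold ordV
  rw [HeightOneSpectrum.valuation_of_algebraMap,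
    HeightOneSpectrum.intValuation_singleton _ (xsubR_ne_zero K x c) rfl, WithZero.log_exp]
  norm_num

omit [FiniteDimensional K⟮x⟯ F] [CharZero K] in
theorem gen_sub_ne_zero (c : K) : AdjoinSimple.gen K x - algebraMap K K⟮x⟯ c ≠ 0 := by
  intro h
  apply x_sub_ne_zero (K := K) (x := x) c
  have := congrArg (algebraMap K⟮x⟯ F) h
  simpa using this

omit [FiniteDimensional K⟮x⟯ F] [CharZero K] in
/-- `ord_{(x-c)} p(x) = rootMultiplicity c p` in `K(x)`. -/
theorem ordV_pcPrime_aeval (c : K) {p : K[X]} (hp : p ≠ 0) :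
    aeval (AdjoinSimple.gen K x) p ≠ 0 ∧
      ordV (pcPrime K x c) K⟮x⟯ (aeval (AdjoinSimple.gen K x) p)
        = (p.rootMultiplicity c : ℤ) := by
  have ho : IsAddVal (fun f : K⟮x⟯ => ordV (pcPrime K x c) K⟮x⟯ f) :=
    isAddVal_primeOrd (F := K⟮x⟯) (pcPrime K x c)
  have key := addVal_aeval_at (K := K) ho (ordV_pcPrime_const K x c)
    (x := AdjoinSimple.gen K x) (c := c)
    (by simp only [ordV_pcPrime_xsub]; exact one_pos) (gen_sub_ne_zero K x c) hp
  refine ⟨key.1, ?_⟩
  have h2 := key.2
  simp only [ordV_pcPrime_xsub, mul_one] at h2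
  exact h2

variable {K x}

/-- A height-one prime of the `x`-chart lies above `(x - c)` iff its place lies over `c`. -/
theorem mem_primesAbove_iff (c : K) (P : HeightOneSpectrum (Bx K x)) :
    P ∈ primesAbove (Bx K x) (pcPrime K x c)
      ↔ 0 < (chartPlace K x P).ord (x - algebraMap K F c) := by
  rw [chartPlace_over_iff]
  constructor
  · intro h
    haveI : P.asIdeal.LiesOver (pc K x c) := (Ideal.liesOver_iff _ _).mpr h.symm
    exact mem_of_liesOver c P.asIdeal
  · intro h
    haveI := P.isPrime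
    exact ((Ideal.liesOver_iff _ _).mp (liesOver_of_mem c P.asIdeal h)).symm

theorem perfectField_fractionRing_Rx : PerfectField (FractionRing (Rx K x)) := by
  haveI : CharZero (Rx K x) := charZero_of_injective_algebraMap (algebraMap K (Rx K x)).injective
  haveI : CharZero (FractionRing (Rx K x)) :=
    charZero_of_injective_algebraMap (IsFractionRing.injective (Rx K x) (FractionRing (Rx K x)))
  infer_instance

variable (K x) in
/-- `ord_{(x-c)} N_{F/K(x)}(f) = ∑_{P over c} ord_P f`, over the explicit finite set of places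
over `c`. -/
theorem ordV_norm_eq_sum [IsAlgClosed K] (c : K) {f : F} (hf : f ≠ 0) :
    ordV (pcPrime K x c) K⟮x⟯ (Algebra.norm K⟮x⟯ f)
      = ∑ P ∈ (finite_over' K x c).toFinset, P.ord f := by
  classical
  haveI := perfectField_fractionRing_Rx (K := K) (x := x)
  rw [ordV_norm (B := Bx K x) (pcPrime K x c) hf]
  have himg : (finite_over' K x c).toFinset
      = (finite_primesAbove (B := Bx K x) (pcPrime K x c)).toFinset.image (chartPlace K x) := by
    ext Q
    simp only [Set.Finite.mem_toFinset, Finset.mem_image]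
    constructor
    · intro hQ
      have hQ' : 0 < Q.ord (x - algebraMap K F c) := hQ
      refine ⟨chartPrime Q (x_mem_of_over Q hQ'), ?_, chartPlace_chartPrime Q _⟩
      rw [mem_primesAbove_iff, chartPlace_chartPrime]
      exact hQ'
    · rintro ⟨P, hP, rfl⟩
      exact (mem_primesAbove_iff c P).mp hP
  rw [himg, Finset.sum_image (fun P _ P' _ h => chartPlace_injective h)]
  refine Finset.sum_congr rfl fun P hP => ?_
  rw [Set.Finite.mem_toFinset] at hP
  haveI := P.isPrime
  haveI : P.asIdeal.LiesOver (pc K x c) := (Ideal.liesOver_iff _ _).mpr hP.symm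
  rw [inertiaDeg_eq_one c P.asIdeal, Nat.cast_one, one_mul, chartPlace_ord P hf]
  rfl

variable (K x) in
/-- `ord_{(x-c)} N_{F/K(x)}(f) = ∑ᶠ_{P over c} ord_P f`. -/
theorem ordV_norm_eq_finsum [IsAlgClosed K] (c : K) {f : F} (hf : f ≠ 0) :
    ordV (pcPrime K x c) K⟮x⟯ (Algebra.norm K⟮x⟯ f)
      = ∑ᶠ P ∈ {P : Place K F | 0 < P.ord (x - algebraMap K F c)}, P.ord f := by
  rw [finsum_mem_eq_finite_toFinset_sum _ (finite_over' K x c)]
  exact ordV_norm_eq_sum K x c hf

omit [FiniteDimensional K⟮x⟯ F] [CharZero K] in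
theorem coe_aeval_gen (p : K[X]) :
    ((aeval (AdjoinSimple.gen K x) p : K⟮x⟯) : F) = aeval x p := by
  have h := Polynomial.aeval_algHom_apply (K⟮x⟯.val) (AdjoinSimple.gen K x) p
  rw [IntermediateField.val_mk] at h
  exact h.symm

omit [FiniteDimensional K⟮x⟯ F] [CharZero K] in
theorem aeval_ne_zero_of_ne_zero {q : K[X]} (hq : q ≠ 0) : aeval x q ≠ 0 := by
  intro h
  exact hq ((transcendental_iff.mp hx.out) q h)

variable (K x) in
/-- The order at `(x - c)` of an element `n` of `K(x)` written as `n * q(x) = p(x)`. -/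
theorem ordV_pcPrime_of_mul_eq (c : K) {n : K⟮x⟯} (hn : n ≠ 0) (p q : K[X]) (hq : q ≠ 0)
    (h : (n : F) * aeval x q = aeval x p) :
    ordV (pcPrime K x c) K⟮x⟯ n = (p.rootMultiplicity c : ℤ) - q.rootMultiplicity c := by
  have hqx : aeval x q ≠ 0 := aeval_ne_zero_of_ne_zero hq
  have hn' : (n : F) ≠ 0 := by
    intro h0
    exact hn (Subtype.ext h0)
  have hp : p ≠ 0 := by
    rintro rfl
    rw [map_zero] at h
    exact mul_ne_zero hn' hqx h
  have hL : n * aeval (AdjoinSimple.gen K x) q = aeval (AdjoinSimple.gen K x) p := by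
    apply Subtype.ext
    show (n : F) * ((aeval (AdjoinSimple.gen K x) q : K⟮x⟯) : F)
      = ((aeval (AdjoinSimple.gen K x) p : K⟮x⟯) : F)
    rw [coe_aeval_gen, coe_aeval_gen]
    exact h
  obtain ⟨hq1, hq2⟩ := ordV_pcPrime_aeval K x c hq
  obtain ⟨hp1, hp2⟩ := ordV_pcPrime_aeval K x c hp
  have := ordV_mul (pcPrime K x c) hn hq1
  rw [hL, hp2, hq2] at this
  omega

variable (K x) in
/-- **FIB5** (with `Fact (Transcendental K x)`), over the explicit finite set of places. -/
theorem norm_order_toFinset' [IsAlgClosed K] {f : F} (hf : f ≠ 0) (p q : K[X]) (hq : q ≠ 0)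
    (h : (Algebra.norm K⟮x⟯ f : F) * aeval x q = aeval x p) (c : K) :
    (p.rootMultiplicity c : ℤ) - q.rootMultiplicity c
      = ∑ P ∈ (finite_over' K x c).toFinset, P.ord f := by
  rw [← ordV_norm_eq_sum K x c hf]
  exact (ordV_pcPrime_of_mul_eq K x c (Algebra.norm_ne_zero_iff.mpr hf) p q hq h).symm

variable (K x) in
/-- **FIB5** (with `Fact (Transcendental K x)`). -/
theorem norm_order' [IsAlgClosed K] {f : F} (hf : f ≠ 0) (p q : K[X]) (hq : q ≠ 0)
    (h : (Algebra.norm K⟮x⟯ f : F) * aeval x q = aeval x p) (c : K) :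
    (p.rootMultiplicity c : ℤ) - q.rootMultiplicity c
      = ∑ᶠ P ∈ {P : Place K F | 0 < P.ord (x - algebraMap K F c)}, P.ord f := by
  rw [← ordV_norm_eq_finsum K x c hf]
  exact (ordV_pcPrime_of_mul_eq K x c (Algebra.norm_ne_zero_iff.mpr hf) p q hq h).symm

end

noncomputable section

variable {K F : Type*} [Field K] [Field F] [Algebra K F] [IsAlgClosed K] [CharZero K]
variable (x : F) [FiniteDimensional K⟮x⟯ F]

/-- **FIB5, the norm-order formula**: if `N_{F/K(x)}(f) * q(x) = p(x)`, then for every `c : K`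
the difference of the root multiplicities of `p` and `q` at `c` is the sum of the orders of `f`
at the places over `c`. -/
theorem norm_order (hx : Transcendental K x) {f : F} (hf : f ≠ 0) (p q : K[X]) (hq : q ≠ 0)
    (h : (Algebra.norm K⟮x⟯ f : F) * aeval x q = aeval x p) (c : K) :
    (p.rootMultiplicity c : ℤ) - q.rootMultiplicity c
      = ∑ᶠ P ∈ {P : Place K F | 0 < P.ord (x - algebraMap K F c)}, P.ord f := by
  haveI : Fact (Transcendental K x) := ⟨hx⟩
  exact norm_order' K x hf p q hq h c

/-- **FIB5** over the explicit finite set `(H42.finite_over x hx c).toFinset` of places over `c`. -/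
theorem norm_order_toFinset (hx : Transcendental K x) {f : F} (hf : f ≠ 0) (p q : K[X])
    (hq : q ≠ 0) (h : (Algebra.norm K⟮x⟯ f : F) * aeval x q = aeval x p) (c : K) :
    (p.rootMultiplicity c : ℤ) - q.rootMultiplicity c
      = ∑ P ∈ (finite_over x hx c).toFinset, P.ord f := by
  haveI : Fact (Transcendental K x) := ⟨hx⟩
  exact norm_order_toFinset' K x hf p q hq h c

/-- The norm of any nonzero `f` is a quotient of two polynomials in `x` (so `norm_order` always
applies): existence of the pair `(p, q)`. -/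
theorem exists_norm_eq_div (hx : Transcendental K x) (f : F) :
    ∃ p q : K[X], q ≠ 0 ∧ (Algebra.norm K⟮x⟯ f : F) * aeval x q = aeval x p := by
  obtain ⟨r, s, hs, hrs⟩ := IsFractionRing.div_surjective (A := Algebra.adjoin K {x})
    (Algebra.norm K⟮x⟯ f)
  have hs0 : s ≠ 0 := nonZeroDivisors.ne_zero hs
  obtain ⟨p, hp⟩ := (Polynomial.algEquivOfTranscendental K x hx).surjective r
  obtain ⟨q, hq⟩ := (Polynomial.algEquivOfTranscendental K x hx).surjective s
  refine ⟨p, q, ?_, ?_⟩
  · rintro rfl
    rw [map_zero] at hq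
    exact hs0 hq.symm
  · have hp' : aeval x p = (r : F) := by
      rw [← hp]
      simp
    have hq' : aeval x q = (s : F) := by
      rw [← hq]
      simp
    rw [hp', hq', ← hrs]
    have hsF : ((algebraMap (Algebra.adjoin K {x}) K⟮x⟯ s : K⟮x⟯) : F) = (s : F) := rfl
    have hrF : ((algebraMap (Algebra.adjoin K {x}) K⟮x⟯ r : K⟮x⟯) : F) = (r : F) := rfl
    have hs0' : (s : F) ≠ 0 := by
      intro h0
      exact hs0 (Subtype.ext h0)
    push_cast
    rw [hsF, hrF, div_mul_cancel₀ _ hs0']

end

end Fermat.Agent.S18.H17
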