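/-
S18 / H17 (helper17) : node `tame_local` (D1(e)) of the C1 sub-skeleton (helper49,
`H49/C1Skel.lean`), statement VERBATIM:

  for a local integral basis `θ` at `c`,  `gramDet θ = (x - c)^n ε`  with `ε ∈ K(x)` a unit at
  `c` and `n + #{P over c} ≤ [F : K(x)]`.

Adapter from the landed place-language tame bound `H7.tame_bound_exists` (helper7) and the landed
fibre dictionary `H42.ord_aeval`, `H42.exists_over` (helper42).
-/
import Mathlib
import Fermat.Agent.S18.H7.TameBound
import Fermat.Agent.S18.H42.Fibres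

set_option autoImplicit false

open AlgebraicCurve IntermediateField Polynomial Fermat.Agent.S18.H74

noncomputable section

namespace Fermat.Agent.S18.H17

open Fermat.Agent.S24.H52

variable {K : Type*} [Field K] {F : Type*} [Field F] [Algebra K F] {x : F}

/-- The coercion `K(x) → F` commutes with evaluating a polynomial at the generator. -/
theorem coe_aeval_gen' (p : K[X]) :
    ((aeval (AdjoinSimple.gen K x) p : K⟮x⟯) : F) = aeval x p := by
  have h := Polynomial.aeval_algHom_apply (K⟮x⟯.val) (AdjoinSimple.gen K x) p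
  rw [IntermediateField.val_mk] at h
  exact h.symm

/-- **D1(e)** tame discriminant at a point `c` (node `tame_local` of `H49/C1Skel.lean`, verbatim):
for a local integral basis `θ` at `c`, `gramDet θ = (x - c)^n ε` with `ε` a unit at `c` and
`n ≤ μ - #{P over c}`. -/
theorem tame_local [IsAlgClosed K] [CharZero K] (hx : Transcendental K x)
    [FiniteDimensional K⟮x⟯ F] (θ : Fin (Module.finrank K⟮x⟯ F) → F) (c : K)
    (hreg : ∀ i, ∀ P : Place K F, 0 < P.ord (x - algebraMap K F c) → 0 ≤ P.ord (θ i))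
    (hloc : ∀ r : Fin (Module.finrank K⟮x⟯ F) → K⟮x⟯,
      (∀ P : Place K F, 0 < P.ord (x - algebraMap K F c) → 0 ≤ P.ord (∑ i, (r i : F) * θ i)) →
      ∀ i, ∀ P : Place K F, 0 < P.ord (x - algebraMap K F c) → 0 ≤ P.ord (r i : F))
    (T : Finset (Place K F)) (hT : ∀ P, P ∈ T ↔ 0 < P.ord (x - algebraMap K F c)) :
    ∃ (n : ℕ) (ε : K⟮x⟯), n + T.card ≤ Module.finrank K⟮x⟯ F ∧
      ((gramDet K F x θ : K⟮x⟯) : F) = (x - algebraMap K F c) ^ n * (ε : F) ∧
      ∀ P : Place K F, 0 < P.ord (x - algebraMap K F c) → P.ord (ε : F) = 0 := by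
  classical
  have hset : {P : Place K F | 0 < P.ord (x - algebraMap K F c)} = (↑T : Set (Place K F)) := by
    ext P
    simp [hT]
  have hfin : {P : Place K F | 0 < P.ord (x - algebraMap K F c)}.Finite := by
    rw [hset]
    exact T.finite_toSet
  have hne := Fermat.Agent.S18.H42.exists_over x hx c
  obtain ⟨p, q, hq, hpq, hcount⟩ :=
    Fermat.Agent.S18.H7.tame_bound_exists x c hfin hne θ hreg hloc
  have hncard : {P : Place K F | 0 < P.ord (x - algebraMap K F c)}.ncard = T.card := by
    rw [hset, Set.ncard_coe_finset]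
  obtain ⟨P0, hP0⟩ := hne
  have hG0 := (Fermat.Agent.S18.H7.tame_bound x c hfin θ hreg hloc P0 hP0).1
  have hq0 : q ≠ 0 := by
    rintro rfl
    simp at hq
  have hqx : aeval x q ≠ 0 := fun h => hq0 ((transcendental_iff.mp hx) q h)
  have hp0 : p ≠ 0 := by
    rintro rfl
    rw [map_zero] at hpq
    exact mul_ne_zero hG0 hqx hpq
  obtain ⟨p', hp', hndvd⟩ := Polynomial.exists_eq_pow_rootMultiplicity_mul_and_not_dvd p hp0 c
  have hp'c : ¬ p'.IsRoot c := fun h => hndvd (Polynomial.dvd_iff_isRoot.mpr h)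
  have hp'0 : p' ≠ 0 := by
    rintro rfl
    exact hp'c (by simp)
  have hp'x : aeval x p' ≠ 0 := fun h => hp'0 ((transcendental_iff.mp hx) p' h)
  have h1 : aeval x p = (x - algebraMap K F c) ^ p.rootMultiplicity c * aeval x p' := by
    conv_lhs => rw [hp']
    simp
  have hε : ((aeval (AdjoinSimple.gen K x) p' / aeval (AdjoinSimple.gen K x) q : K⟮x⟯) : F)
      = aeval x p' / aeval x q := by
    rw [IntermediateField.coe_div, coe_aeval_gen', coe_aeval_gen']
  refine ⟨p.rootMultiplicity c,
    aeval (AdjoinSimple.gen K x) p' / aeval (AdjoinSimple.gen K x) q, ?_, ?_, ?_⟩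
  · omega
  · rw [hε, ← mul_div_assoc, ← h1, eq_div_iff hqx]
    exact hpq
  · intro P hP
    rw [hε, (isAddVal_ord P).map_div hp'x hqx,
      (Fermat.Agent.S18.H42.ord_aeval P hP hp'0).2, (Fermat.Agent.S18.H42.ord_aeval P hP hq0).2,
      Polynomial.rootMultiplicity_eq_zero hp'c, Polynomial.rootMultiplicity_eq_zero hq]
    simp

end Fermat.Agent.S18.H17
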