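/-
S18 / H17 (helper17) : **FIB6, weak approximation** for places of a function field `F/K`.

* `exists_uniformizer_away` : in a Dedekind domain, for a height-one prime `v₀` and a finite set
  `T` of height-one primes there is `t` with `v₀(t) = exp (-1)` and `v(t) = 1` for the other
  `v ∈ T` (Chinese remainder theorem).
* `exists_ord_eq_one_chart` : the same for places `P` of `F/K` in the `x`-chart (`x ∈ O_P`).
* `exists_ord_eq_finset_chart` : prescribed orders on a finite set of places of the `x`-chart.
* `exists_ord_eq` : **FIB6** in the shape of the C1 fibres package (helper42, #1232):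
  for `P₀` over `c` and `n : ℤ` there is `f ≠ 0` with `ord_{P₀} f = n` and `ord_P f = 0` at the
  other places over `c`.
* `exists_ord_eq_finset` : prescribed orders on an arbitrary finite set of places of `F/K`
  (the chart is moved by `x ↦ 1 / (x - a)` so that no place of the set is a pole).
-/
import Mathlib
import Fermat.Agent.S18.H42.Fibres

set_option autoImplicit false
set_option linter.unusedSectionVars false
set_option linter.style.haveILetI false
set_option synthInstance.maxHeartbeats 200000
set_option maxHeartbeats 1000000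

open AlgebraicCurve IsDedekindDomain Polynomial IntermediateField
open scoped IntermediateField.algebraAdjoinAdjoin

namespace Fermat.Agent.S18.H17

open Fermat.Agent.S24.H52 Fermat.Agent.S18.H42
open scoped ChartInst

noncomputable section

section Dedekind

variable {B : Type*} [CommRing B] [IsDedekindDomain B]

/-- Weak approximation in a Dedekind domain: a uniformizer at `v₀` which is a unit at the other
primes of a finite set. -/
theorem exists_uniformizer_away (v₀ : HeightOneSpectrum B) (T : Finset (HeightOneSpectrum B)) :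
    ∃ t : B, v₀.intValuation t = WithZero.exp (-1 : ℤ) ∧
      ∀ v ∈ T, v ≠ v₀ → v.intValuation t = 1 := by
  classical
  obtain ⟨π, hπ⟩ := v₀.intValuation_exists_uniformizer
  obtain ⟨y, hy⟩ := IsDedekindDomain.exists_forall_sub_mem_ideal (s := insert v₀ T)
    (fun v : HeightOneSpectrum B => v.asIdeal) (fun v => if v = v₀ then 2 else 1)
    (fun v _ => v.prime) (fun v _ w _ hvw h => hvw (HeightOneSpectrum.ext h))
    (fun v => if v.1 = v₀ then π else 1)
  refine ⟨y, ?_, ?_⟩
  · have h0 := hy v₀ (Finset.mem_insert_self _ _)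
    simp only [if_true] at h0
    have h1 : v₀.intValuation (y - π) ≤ WithZero.exp (-((2 : ℕ) : ℤ)) :=
      (v₀.intValuation_le_pow_iff_mem _ 2).mpr h0
    have h2 : v₀.intValuation (y - π) < v₀.intValuation π := by
      rw [hπ]
      refine lt_of_le_of_lt h1 ?_
      rw [WithZero.exp_lt_exp]
      norm_num
    have h3 := Valuation.map_add_eq_of_lt_left v₀.intValuation h2
    rw [add_sub_cancel] at h3
    rw [h3, hπ]
  · intro v hv hne
    have h0 := hy v (Finset.mem_insert_of_mem hv)
    simp only [if_neg hne, pow_one] at h0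
    rw [HeightOneSpectrum.intValuation_eq_one_iff]
    intro hmem
    have h1 : (1 : B) ∈ v.asIdeal := by
      have := v.asIdeal.sub_mem hmem h0
      simpa using this
    exact v.isPrime.ne_top ((Ideal.eq_top_iff_one _).mpr h1)

end Dedekind

section Chart

variable (K : Type*) {F : Type*} [Field K] [Field F] [Algebra K F] (x : F)
variable [hx : Fact (Transcendental K x)] [FiniteDimensional K⟮x⟯ F] [CharZero K]

variable {K x}

/-- Weak approximation in the `x`-chart: a function of order `1` at `P₀` and order `0` at the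
other places of a finite set `T` of places with `x ∈ O_P`. -/
theorem exists_ord_eq_one_chart (P₀ : Place K F) (hP₀ : x ∈ P₀.toValuationSubring)
    (T : Finset (Place K F)) (hT : ∀ P ∈ T, x ∈ P.toValuationSubring) :
    ∃ t : F, t ≠ 0 ∧ P₀.ord t = 1 ∧ ∀ P ∈ T, P ≠ P₀ → P.ord t = 0 := by
  classical
  let T' : Finset (HeightOneSpectrum (Bx K x)) :=
    T.attach.image (fun P => chartPrime P.1 (hT P.1 P.2))
  obtain ⟨t, ht0, htT⟩ := exists_uniformizer_away (chartPrime P₀ hP₀) T'
  have ht : t ≠ 0 := by
    rintro rfl
    rw [Valuation.map_zero] at ht0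
    exact WithZero.exp_ne_zero ht0.symm
  have htF : algebraMap (Bx K x) F t ≠ 0 := by
    simpa using ht
  refine ⟨algebraMap (Bx K x) F t, htF, ?_, ?_⟩
  · rw [← chartPlace_chartPrime P₀ hP₀, chartPlace_ord _ htF, primeOrd,
      HeightOneSpectrum.valuation_of_algebraMap, ht0, WithZero.log_exp]
    norm_num
  · intro P hP hne
    have hne' : chartPrime P (hT P hP) ≠ chartPrime P₀ hP₀ := by
      intro h
      apply hne
      rw [← chartPlace_chartPrime P (hT P hP), h, chartPlace_chartPrime]
    have hmem : chartPrime P (hT P hP) ∈ T' := by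
      refine Finset.mem_image.mpr ⟨⟨P, hP⟩, Finset.mem_attach _ _, rfl⟩
    rw [← chartPlace_chartPrime P (hT P hP), chartPlace_ord _ htF, primeOrd,
      HeightOneSpectrum.valuation_of_algebraMap, htT _ hmem hne', WithZero.log_one, neg_zero]

/-- Prescribed orders on a finite set of places of the `x`-chart. -/
theorem exists_ord_eq_finset_chart (T : Finset (Place K F))
    (hT : ∀ P ∈ T, x ∈ P.toValuationSubring) (n : Place K F → ℤ) :
    ∃ f : F, f ≠ 0 ∧ ∀ P ∈ T, P.ord f = n P := by
  classical
  have hex : ∀ P : T, ∃ t : F, t ≠ 0 ∧ P.1.ord t = 1 ∧ ∀ Q ∈ T, Q ≠ P.1 → Q.ord t = 0 :=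
    fun P => exists_ord_eq_one_chart P.1 (hT P.1 P.2) T hT
  choose t ht0 ht1 htT using hex
  refine ⟨∏ P ∈ T.attach, t P ^ n P.1, ?_, ?_⟩
  · exact Finset.prod_ne_zero_iff.mpr fun P _ => zpow_ne_zero _ (ht0 P)
  · intro Q hQ
    have hprod : ∀ S : Finset T, Q.ord (∏ P ∈ S, t P ^ n P.1)
        = ∑ P ∈ S, n P.1 * Q.ord (t P) := by
      intro S
      induction S using Finset.induction_on with
      | empty => simp [(isAddVal_ord Q).map_one]
      | insert P S hPS ih =>
        rw [Finset.prod_insert hPS, Finset.sum_insert hPS,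
          (isAddVal_ord Q).map_mul (zpow_ne_zero _ (ht0 P))
            (Finset.prod_ne_zero_iff.mpr fun P _ => zpow_ne_zero _ (ht0 P)), ih,
          (isAddVal_ord Q).map_zpow (ht0 P)]
    rw [hprod, Finset.sum_eq_single_of_mem (⟨Q, hQ⟩ : T) (Finset.mem_attach _ _)]
    · rw [ht1 ⟨Q, hQ⟩, mul_one]
    · intro P _ hne
      rw [htT P Q hQ (fun h => hne (Subtype.ext h.symm)), mul_zero]

end Chart

section Main

variable {K F : Type*} [Field K] [Field F] [Algebra K F] [CharZero K]
variable (x : F) [FiniteDimensional K⟮x⟯ F]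

/-- **FIB6, weak approximation in a fibre**: for a place `P₀` over `c` and `n : ℤ` there is a
nonzero `f` with `ord_{P₀} f = n` and `ord_P f = 0` at all other places over `c`. -/
theorem exists_ord_eq (hx : Transcendental K x) (c : K) (P₀ : Place K F)
    (hP₀ : 0 < P₀.ord (x - algebraMap K F c)) (n : ℤ) :
    ∃ f : F, f ≠ 0 ∧ P₀.ord f = n ∧
      ∀ P : Place K F, 0 < P.ord (x - algebraMap K F c) → P ≠ P₀ → P.ord f = 0 := by
  classical
  haveI : Fact (Transcendental K x) := ⟨hx⟩
  obtain ⟨t, ht, ht0, htT⟩ := exists_ord_eq_one_chart (K := K) (x := x) P₀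
    (x_mem_of_over P₀ hP₀) (finite_over x hx c).toFinset
    (fun P hP => by
      have hP' : P ∈ {P : Place K F | 0 < P.ord (x - algebraMap K F c)} :=
        (Set.Finite.mem_toFinset _).mp hP
      exact x_mem_of_over P hP')
  refine ⟨t ^ n, zpow_ne_zero _ ht, ?_, ?_⟩
  · rw [(isAddVal_ord P₀).map_zpow ht, ht0, mul_one]
  · intro P hP hne
    rw [(isAddVal_ord P).map_zpow ht, htT P ((Set.Finite.mem_toFinset _).mpr hP) hne, mul_zero]

/-- Prescribed orders at the places over `c`: for any `n : Place K F → ℤ` there is a nonzero `f`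
with `ord_P f = n P` at every place over `c`. -/
theorem exists_ord_eq_over (hx : Transcendental K x) (c : K) (n : Place K F → ℤ) :
    ∃ f : F, f ≠ 0 ∧ ∀ P : Place K F, 0 < P.ord (x - algebraMap K F c) → P.ord f = n P := by
  haveI : Fact (Transcendental K x) := ⟨hx⟩
  obtain ⟨f, hf, h⟩ := exists_ord_eq_finset_chart (K := K) (x := x) (finite_over x hx c).toFinset
    (fun P hP => by
      have hP' : P ∈ {P : Place K F | 0 < P.ord (x - algebraMap K F c)} :=
        (Set.Finite.mem_toFinset _).mp hP
      exact x_mem_of_over P hP') n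
  exact ⟨f, hf, fun P hP => h P ((Set.Finite.mem_toFinset _).mpr hP)⟩

/-- Prescribed orders on a finite set of places none of which is a pole of `x`. -/
theorem exists_ord_eq_finset_of_nonneg (hx : Transcendental K x) (T : Finset (Place K F))
    (hT : ∀ P ∈ T, 0 ≤ P.ord x) (n : Place K F → ℤ) :
    ∃ f : F, f ≠ 0 ∧ ∀ P ∈ T, P.ord f = n P := by
  haveI : Fact (Transcendental K x) := ⟨hx⟩
  have hx0 : x ≠ 0 := by
    rintro rfl
    exact hx (isAlgebraic_zero)
  exact exists_ord_eq_finset_chart (K := K) (x := x) T
    (fun P hP => (mem_iff_ord_nonneg P hx0).mpr (hT P hP)) n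

omit [CharZero K] [FiniteDimensional K⟮x⟯ F] in
/-- A place is over at most one `c`. -/
theorem over_unique (P : Place K F) {c c' : K} (h : 0 < P.ord (x - algebraMap K F c))
    (h' : 0 < P.ord (x - algebraMap K F c')) : c = c' := by
  by_contra hne
  have h1 : x - algebraMap K F c ≠ 0 := by
    intro h0
    rw [h0, Place.ord_zero] at h
    exact lt_irrefl _ h
  have h2 : x - algebraMap K F c' ≠ 0 := by
    intro h0
    rw [h0, Place.ord_zero] at h'
    exact lt_irrefl _ h'
  have hsum : (x - algebraMap K F c') + -(x - algebraMap K F c) = algebraMap K F (c - c') := by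
    rw [map_sub]
    ring
  have h3 : algebraMap K F (c - c') ≠ 0 := by
    rw [Ne, map_eq_zero]
    exact sub_ne_zero.mpr hne
  have h4 := (isAddVal_ord P).map_add h2 (neg_ne_zero.mpr h1) (by rw [hsum]; exact h3)
  rw [hsum, (isAddVal_ord P).map_neg _ h1,
    Fermat.Agent.S24.ord_algebraMap P (sub_ne_zero.mpr hne)] at h4
  have := lt_min h' h
  omega

/-- **Weak approximation** for a function field `F/K` (`x` transcendental, `[F : K(x)] < ∞`,
`char K = 0`): prescribed orders on an arbitrary finite set of places. -/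
theorem exists_ord_eq_finset (hx : Transcendental K x) (T : Finset (Place K F))
    (n : Place K F → ℤ) : ∃ f : F, f ≠ 0 ∧ ∀ P ∈ T, P.ord f = n P := by
  classical
  -- choose `a` such that no place of `T` lies over `a`
  have hfin : {a : K | ∃ P ∈ T, 0 < P.ord (x - algebraMap K F a)}.Finite := by
    have : {a : K | ∃ P ∈ T, 0 < P.ord (x - algebraMap K F a)}
        = ⋃ P ∈ T, {a : K | 0 < P.ord (x - algebraMap K F a)} := by
      ext a
      simp
    rw [this]
    refine Set.Finite.biUnion T.finite_toSet fun P _ => Set.Subsingleton.finite ?_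
    intro a ha b hb
    exact over_unique x P ha hb
  obtain ⟨a, ha⟩ := (hfin.infinite_compl).nonempty
  have ha' : ∀ P ∈ T, P.ord (x - algebraMap K F a) ≤ 0 := by
    intro P hP
    by_contra hcon
    exact ha ⟨P, hP, not_le.mp hcon⟩
  have hxa : x - algebraMap K F a ≠ 0 := by
    intro h0
    apply hx
    rw [sub_eq_zero.mp h0]
    exact isAlgebraic_algebraMap a
  -- the new coordinate
  obtain ⟨x', hx'def⟩ : ∃ x' : F, x' = (x - algebraMap K F a)⁻¹ := ⟨_, rfl⟩
  have hxx' : x = x'⁻¹ + algebraMap K F a := by
    rw [hx'def, inv_inv]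
    ring
  have htr : Transcendental K x' := by
    intro halg
    apply hx
    rw [hxx']
    exact halg.inv.add (isAlgebraic_algebraMap a)
  have hfield : K⟮x'⟯ = K⟮x⟯ := by
    apply le_antisymm
    · rw [IntermediateField.adjoin_simple_le_iff, hx'def]
      exact K⟮x⟯.inv_mem (K⟮x⟯.sub_mem (IntermediateField.mem_adjoin_simple_self K x)
        (K⟮x⟯.algebraMap_mem a))
    · rw [IntermediateField.adjoin_simple_le_iff, hxx']
      exact K⟮x'⟯.add_mem (K⟮x'⟯.inv_mem (IntermediateField.mem_adjoin_simple_self K x'))
        (K⟮x'⟯.algebraMap_mem a)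
  haveI : FiniteDimensional K⟮x'⟯ F := by
    rw [hfield]
    infer_instance
  refine exists_ord_eq_finset_of_nonneg x' htr T (fun P hP => ?_) n
  rw [hx'def, Place.ord_inv]
  have := ha' P hP
  omega

end Main

end

end Fermat.Agent.S18.H17
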